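import Fermat.Agent.S16.H76.UB

/-!
# S16, tail of `Skel.lowerBound` (helper76)

From a theta series `θ ∈ M₂(Γ₀(p))` with `a₀ = 1` and even higher coefficients to the statement
`Skel.LowerBound p` (unfolded): `G := θ / 2`.
-/

set_option autoImplicit false

noncomputable section

namespace Fermat.Agent.S16.H76

open UpperHalfPlane ModularForm CongruenceSubgroup MatrixGroups ModularFormClass
open Fermat.Agent.S20 (MF SF)
open Fermat.Agent.S16

/-- Tail of `Skel.lowerBound` (conclusion = `Skel.LowerBound p` unfolded). -/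
theorem lowerBound_of_theta (p : ℕ) [Fact p.Prime] {θ : ℍ → ℂ} (hmem : θ ∈ MF (Gamma0 p) 2)
    (h0 : qCoeff θ 0 = 1)
    (hk : ∀ k : ℕ, 1 ≤ k → ∃ m : ℤ, qCoeff θ k = 2 * (m : ℂ)) :
    ∃ G ∈ MF (Gamma0 p) 2, qCoeff G 0 = 1 / 2 ∧ IntFrom1 G := by
  have hp : p.Prime := Fact.out
  haveI : NeZero p := ⟨hp.ne_zero⟩
  refine ⟨((1 / 2 : ℂ)) • θ, Submodule.smul_mem _ _ hmem, ?_, ?_⟩
  · rw [qCoeff_smul_of_mem_MF p hmem, h0, mul_one]
  · intro k hk1
    obtain ⟨m, hm⟩ := hk k hk1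
    exact ⟨m, by rw [qCoeff_smul_of_mem_MF p hmem, hm]; ring⟩

end Fermat.Agent.S16.H76
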