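import Fermat.Agent.S16.Defs
import Fermat.Agent.S20.C0_helper559
import Fermat.Agent.S23.Cap.Basic

/-!
# S16, WP UB (helper76): arithmetic assembly `upperBound_of`

Exact skeleton statement (`Fermat.Agent.S16.Skel.upperBound_of`, skeleton of helper556), with
`UpperBound p` unfolded.  Pure arithmetic on top of the three inputs `U0`, `U2`, `U4`.
-/

set_option autoImplicit false

noncomputable section

namespace Fermat.Agent.S16.H76

open UpperHalfPlane ModularForm CongruenceSubgroup MatrixGroups ModularFormClass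
open Fermat.Agent.S20 (MF SF)
open Fermat.Agent.S16

/-- bridge: a function-level form on `Γ₀(p)` is an `IsMF` in the sense of `S23.Cap`. -/
lemma isMF_of_mem_MF (N : ℕ) [NeZero N] {k : ℤ} {G : ℍ → ℂ} (hG : G ∈ MF (Gamma0 N) k) :
    Fermat.Agent.S23.Cap.IsMF (Fermat.Agent.S23.Cap.G0 N) k G :=
  ⟨Fermat.Agent.S20.C0h559.mkMF (Gamma0 N) k G hG, rfl⟩

/-- `qCoeff` of a scalar multiple. -/
lemma qCoeff_smul_of_mem_MF (N : ℕ) [NeZero N] {k : ℤ} {G : ℍ → ℂ} (hG : G ∈ MF (Gamma0 N) k)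
    (c : ℂ) (n : ℕ) : qCoeff (c • G) n = c * qCoeff G n := by
  unfold qCoeff
  have h := Fermat.Agent.S23.Cap.qx_smul N c (isMF_of_mem_MF N hG)
  simp only [Fermat.Agent.S23.Cap.qx] at h
  rw [h]
  simp [smul_eq_mul]

/-- pure arithmetic: `t ∣ 24`, `t ∣ p + 1`, `¬ 8 ∣ t`, `p ≥ 5` prime ⟹ `t * gcd (p-1) 12 ∣ 24`. -/
lemma mul_gcd_dvd_24 (p : ℕ) (hp : p.Prime) (hp5 : 5 ≤ p) (t : ℕ) (h24 : t ∣ 24)
    (hp1 : t ∣ p + 1) (h8 : ¬ 8 ∣ t) : t * Nat.gcd (p - 1) 12 ∣ 24 := by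
  have ht12 : t ∣ 12 := by
    have hle : t ≤ 24 := Nat.le_of_dvd (by norm_num) h24
    interval_cases t <;> first | decide | (exfalso; revert h24; decide) | (exfalso; exact h8 (by decide))
  -- p mod 12
  have h2 : ¬ 2 ∣ p := fun h => by
    have := (Nat.prime_dvd_prime_iff_eq Nat.prime_two hp).mp h; omega
  have h3 : ¬ 3 ∣ p := fun h => by
    have := (Nat.prime_dvd_prime_iff_eq Nat.prime_three hp).mp h; omega
  have hmod : p % 12 = 1 ∨ p % 12 = 5 ∨ p % 12 = 7 ∨ p % 12 = 11 := by omega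
  obtain ⟨q, hq⟩ : ∃ q, p = 12 * q + p % 12 := ⟨p / 12, (Nat.div_add_mod p 12).symm⟩
  have hq1 : 1 ≤ p := by omega
  have hgcd : Nat.gcd (p - 1) 12 = Nat.gcd (p % 12 + 11) 12 := by
    have : p - 1 + 12 = p % 12 + 11 + 12 * q := by omega
    calc Nat.gcd (p - 1) 12 = Nat.gcd (p - 1 + 12) 12 := by simp
      _ = Nat.gcd (p % 12 + 11 + 12 * q) 12 := by rw [this]
      _ = Nat.gcd (p % 12 + 11) 12 := by simp
  have htp : t ∣ p % 12 + 1 := by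
    have h1 : t ∣ 12 * q := Dvd.dvd.mul_right ht12 q
    have h2 : p + 1 = 12 * q + (p % 12 + 1) := by omega
    rw [h2] at hp1
    exact (Nat.dvd_add_right h1).mp hp1
  rw [hgcd]
  have hle : t ≤ 12 := Nat.le_of_dvd (by norm_num) ht12
  rcases hmod with h | h | h | h <;> rw [h] at htp ⊢ <;>
    interval_cases t <;> first | decide | (exfalso; revert htp; decide) | (exfalso; revert ht12; decide)

/-- **WP UB** (`Skel.upperBound_of`, with `Skel.UpperBound p` unfolded). -/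
theorem upperBound_of (p : ℕ) [Fact p.Prime] (hp5 : 5 ≤ p)
    (hU0 : ∀ G ∈ MF (Gamma0 p) 2, IntFrom1 G →
      ∃ r : ℚ, qCoeff G 0 = (r : ℂ) ∧
        ∀ ℓ : ℕ, ℓ.Prime → ℓ ≠ p → ∀ a : ℕ, ℓ ^ a ∣ r.den → ℓ ^ a ∣ p + 1)
    (hU2 : ∀ G ∈ MF (Gamma0 p) 2, ∀ (ℓ : ℕ), ℓ.Prime → ∀ (a : ℕ) (s : ℤ), ¬ (ℓ : ℤ) ∣ s →
      qCoeff G 0 = (s : ℂ) →
      (∀ k : ℕ, 1 ≤ k → ∃ m : ℤ, qCoeff G k = ((ℓ : ℂ) ^ a) * (m : ℂ)) → ℓ ^ a ∣ 24)
    (hU4 : p % 8 = 7 → ∀ G ∈ MF (Gamma0 p) 2, ∀ s : ℤ, Odd s → qCoeff G 0 = (s : ℂ) →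
      (∀ k : ℕ, 1 ≤ k → ∃ m : ℤ, qCoeff G k = 8 * (m : ℂ)) → False) :
    ∀ G ∈ MF (Gamma0 p) 2, IntFrom1 G →
      ∃ m : ℤ, 24 * qCoeff G 0 = (Nat.gcd (p - 1) 12 : ℂ) * (m : ℂ) := by
  intro G hG hint
  have hp : p.Prime := Fact.out
  haveI : NeZero p := ⟨hp.ne_zero⟩
  obtain ⟨r, hr, hU0'⟩ := hU0 G hG hint
  set t : ℕ := r.den with ht
  set s : ℤ := r.num with hs
  have htpos : 0 < t := r.den_pos
  have hcop : Nat.Coprime s.natAbs t := r.reduced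
  -- the rescaled form
  have hG' : ((t : ℂ) • G) ∈ MF (Gamma0 p) 2 := Submodule.smul_mem _ _ hG
  have hq : ∀ n, qCoeff ((t : ℂ) • G) n = (t : ℂ) * qCoeff G n :=
    fun n => qCoeff_smul_of_mem_MF p hG _ n
  have hrc : (r : ℂ) = (s : ℂ) / (t : ℂ) := Rat.cast_def r
  have htne : (t : ℂ) ≠ 0 := by exact_mod_cast htpos.ne'
  have h0 : qCoeff ((t : ℂ) • G) 0 = (s : ℂ) := by
    rw [hq, hr, hrc]; field_simp
  -- a prime dividing t does not divide s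
  have hnd : ∀ ℓ : ℕ, ℓ.Prime → ℓ ∣ t → ¬ (ℓ : ℤ) ∣ s := by
    intro ℓ hℓ hℓt hℓs
    have h1 : ℓ ∣ s.natAbs := Int.natCast_dvd.mp hℓs
    have h2 : ℓ ∣ Nat.gcd s.natAbs t := Nat.dvd_gcd h1 hℓt
    rw [hcop] at h2
    exact hℓ.one_lt.ne' (Nat.dvd_one.mp h2)
  -- higher coefficients of the rescaled form are divisible by any divisor of t
  have hdiv : ∀ d : ℕ, d ∣ t → ∀ k : ℕ, 1 ≤ k →
      ∃ m : ℤ, qCoeff ((t : ℂ) • G) k = (d : ℂ) * (m : ℂ) := by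
    rintro d ⟨e, he⟩ k hk
    obtain ⟨m, hm⟩ := hint k hk
    refine ⟨(e : ℤ) * m, ?_⟩
    rw [hq, hm, he]
    push_cast
    ring
  -- t ∣ 24
  have ht24 : t ∣ 24 := by
    rw [Nat.dvd_iff_prime_pow_dvd_dvd]
    intro ℓ a hℓ hℓa
    rcases Nat.eq_zero_or_pos a with rfl | ha
    · simp
    · have hℓt : ℓ ∣ t := dvd_trans (dvd_pow_self ℓ ha.ne') hℓa
      refine hU2 _ hG' ℓ hℓ a s (hnd ℓ hℓ hℓt) h0 ?_
      intro k hk
      obtain ⟨m, hm⟩ := hdiv (ℓ ^ a) hℓa k hk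
      exact ⟨m, by rw [hm]; push_cast; ring⟩
  -- t ∣ p + 1
  have htp1 : t ∣ p + 1 := by
    rw [Nat.dvd_iff_prime_pow_dvd_dvd]
    intro ℓ a hℓ hℓa
    rcases Nat.eq_zero_or_pos a with rfl | ha
    · simp
    · have hℓt : ℓ ∣ t := dvd_trans (dvd_pow_self ℓ ha.ne') hℓa
      have hℓp : ℓ ≠ p := by
        rintro rfl
        have h24 : ℓ ∣ 24 := dvd_trans hℓt ht24
        have hle : ℓ ≤ 24 := Nat.le_of_dvd (by norm_num) h24
        interval_cases ℓ <;> first | omega | (revert h24; decide) | (revert hℓ; decide)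
      exact hU0' ℓ hℓ hℓp a hℓa
  -- ¬ 8 ∣ t
  have h8 : ¬ 8 ∣ t := by
    intro h8
    have hp8 : p % 8 = 7 := by
      have : 8 ∣ p + 1 := dvd_trans h8 htp1
      omega
    have hodd : Odd s := by
      rw [← Int.not_even_iff_odd]
      intro hev
      have : ((2 : ℕ) : ℤ) ∣ s := by exact_mod_cast hev.two_dvd
      exact hnd 2 Nat.prime_two (dvd_trans (by decide) h8) this
    refine hU4 hp8 _ hG' s hodd h0 ?_
    intro k hk
    obtain ⟨m, hm⟩ := hdiv 8 h8 k hk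
    exact ⟨m, by rw [hm]; push_cast; ring⟩
  obtain ⟨c, hc⟩ := mul_gcd_dvd_24 p hp hp5 t ht24 htp1 h8
  refine ⟨(c : ℤ) * s, ?_⟩
  rw [hr, hrc]
  have h24c : (24 : ℂ) = (t : ℂ) * (Nat.gcd (p - 1) 12 : ℂ) * (c : ℂ) := by
    exact_mod_cast congrArg (Nat.cast : ℕ → ℂ) hc
  rw [h24c]
  push_cast
  field_simp

end Fermat.Agent.S16.H76
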